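/-
P-ES1 / ES1-A / PL-3 (helper96): the transparent coset datum at the cusp for an arbitrary
modular model `X = (Γ, F, R, j)` (generic port of `Fermat.Agent.H41.cuspDatumStatement_of`).

`cuspDatum (X : Model) (hX : X.IsModular) : CuspDatumStatement X`.
-/
import Fermat.Agent.H41.CuspDatumC
import Fermat.Agent.H23.ES1A.Basic
import Fermat.Agent.H82.CuspMero

set_option autoImplicit false

noncomputable section

open UpperHalfPlane ModularForm CongruenceSubgroup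
open scoped MatrixGroups Manifold Topology ModularForm Pointwise

namespace Fermat.Agent.H96.ES1A

open Fermat.Agent.H23.ES1A Fermat.Agent.H41

local notation "𝕢" => Function.Periodic.qParam

/-- The data extracted from a modular model, with a period `e` of all conjugates of `Γ`. -/
structure CoreDataG (X : Model) (e : ℕ) where
  Θ : ↥X.R →+* (ℍ → ℂ)
  rep : ∀ r : ↥X.R, Rep X (Θ r) (r : ↥X.F)
  inv : ∀ (r : ↥X.R) (β : SL(2, ℤ)), β ∈ X.Γ → ∀ z : ℍ, Θ r (β • z) = Θ r z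
  growth : ∀ r : ↥X.R, H23.EsA.ModerateGrowth (Θ r)
  jmem : X.j ∈ X.R
  jrep : Θ ⟨X.j, jmem⟩ = H23.jfun
  frac : ∀ f : ↥X.F, ∃ r s : ↥X.R, s ≠ 0 ∧ f * (s : ↥X.F) = r
  period : ∀ γ : SL(2, ℤ), γ * ModularGroup.T ^ e * γ⁻¹ ∈ X.Γ
  sep : ∀ γ : SL(2, ℤ), (∀ (r : ↥X.R) (z : ℍ), Θ r (γ • z) = Θ r z) → γ ∈ X.Γ

/-- Construction of the core data from `IsModular`. -/
theorem exists_coreDataG (X : Model) (hX : X.IsModular) :
    ∃ e : ℕ, 0 < e ∧ Nonempty (CoreDataG X e) := by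
  obtain ⟨e, he, hper⟩ := hX.exists_period
  refine ⟨e, he, ?_⟩
  let φ : ↥X.R →+* LaurentSeries ℂ := (X.F.val.toRingHom).comp X.R.val.toRingHom
  have hφ : ∀ r : ↥X.R, ∃ h : ℍ → ℂ, H44.LaurentRel h (φ r) := by
    intro r
    obtain ⟨h, hrep, -, -, -⟩ := hX.rep (r : ↥X.F) r.2
    exact ⟨h, hrep⟩
  obtain ⟨Θ, hΘ⟩ := H44.gen11_exists_lift φ hφ
  refine ⟨⟨Θ, hΘ, ?_, ?_, hX.j_mem, ?_, ?_, hper, ?_⟩⟩
  · intro r β hβ z
    obtain ⟨h, hrep, -, hinv, -⟩ := hX.rep (r : ↥X.F) r.2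
    have : Θ r = h := (hΘ r).unique_left hrep
    rw [this]
    exact hinv β hβ z
  · intro r
    obtain ⟨h, hrep, -, -, hg⟩ := hX.rep (r : ↥X.F) r.2
    have : Θ r = h := (hΘ r).unique_left hrep
    rw [this]
    exact hg
  · exact (hΘ ⟨X.j, hX.j_mem⟩).unique_left hX.j_rep
  · intro f
    obtain ⟨r, s, hr, hs, hs0, hfs⟩ := hX.frac f
    exact ⟨⟨r, hr⟩, ⟨s, hs⟩, fun h => hs0 (congrArg Subtype.val h), hfs⟩
  · intro γ hγ
    refine hX.sep γ fun r h hr hrep z => ?_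
    have : Θ ⟨r, hr⟩ = h := (hΘ ⟨r, hr⟩).unique_left hrep
    rw [← this]
    exact hγ ⟨r, hr⟩ z

namespace CoreDataG

variable {X : Model} {e : ℕ} (D : CoreDataG X e)

theorem md (r : ↥X.R) : MDiff (D.Θ r) := (D.rep r).mdifferentiable

theorem inj : Function.Injective D.Θ := by
  intro r r' h
  have h1 := D.rep r
  rw [h] at h1
  exact Subtype.ext (Subtype.ext (h1.unique_right (D.rep r')))

theorem const (c : ℂ) : D.Θ (algebraMap ℂ ↥X.R c) = fun _ => c := by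
  refine (D.rep _).unique_left ?_
  have h := H44.laurentRel_const c
  have e' : (((algebraMap ℂ ↥X.R c : ↥X.R) : ↥X.F) : LaurentSeries ℂ)
      = algebraMap ℂ (LaurentSeries ℂ) c := rfl
  show H44.LaurentRel _ (((algebraMap ℂ ↥X.R c : ↥X.R) : ↥X.F) : LaurentSeries ℂ)
  rw [e', ModularCurve.algebraMap_laurentSeries_eq_single]
  exact h

theorem smul_mem (r : ↥X.R) (β : SL(2, ℤ)) (hβ : β ∈ X.Γ) (z : ℍ) :
    D.Θ r (β • z) = D.Θ r z := D.inv r β hβ z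

include D in
/-- `γ⁻¹ T^(m e) γ ∈ Γ`. -/
theorem conj_T_zpow_mem (γ : SL(2, ℤ)) (m : ℤ) :
    γ⁻¹ * ModularGroup.T ^ (m * (e : ℤ)) * γ ∈ X.Γ := by
  have h1 := D.period γ⁻¹
  rw [inv_inv] at h1
  have h2 := X.Γ.zpow_mem h1 m
  have e1 : (γ⁻¹ * ModularGroup.T ^ e * γ) ^ m = γ⁻¹ * ModularGroup.T ^ (m * (e : ℤ)) * γ := by
    have := conj_zpow (a := γ⁻¹) (b := ModularGroup.T ^ e) (i := m)
    rw [inv_inv] at this
    rw [this, mul_comm m (e : ℤ), zpow_mul, zpow_natCast]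
  rw [e1] at h2
  exact h2

/-- The function of `t = q^{1/e}` attached to `r ∈ R` and `γ`. -/
def Hfun (γ : SL(2, ℤ)) (r : ↥X.R) (t : ℂ) : ℂ := D.Θ r (γ⁻¹ • cuspPt e t)

theorem Hfun_add (γ : SL(2, ℤ)) (r s : ↥X.R) :
    D.Hfun γ (r + s) = D.Hfun γ r + D.Hfun γ s := by
  funext t
  have h := D.Θ.map_add r s
  exact congrFun h _

theorem Hfun_mul (γ : SL(2, ℤ)) (r s : ↥X.R) :
    D.Hfun γ (r * s) = D.Hfun γ r * D.Hfun γ s := by
  funext t
  have h := D.Θ.map_mul r s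
  exact congrFun h _

theorem Hfun_one (γ : SL(2, ℤ)) : D.Hfun γ 1 = fun _ => 1 := by
  funext t
  have h := D.Θ.map_one
  exact congrFun h _

theorem Hfun_const (γ : SL(2, ℤ)) (c : ℂ) :
    D.Hfun γ (algebraMap ℂ ↥X.R c) = fun _ => c := by
  funext t
  exact congrFun (D.const c) _

theorem Hfun_j (γ : SL(2, ℤ)) :
    D.Hfun γ ⟨X.j, D.jmem⟩ = fun t => H23.jfun (cuspPt e t) := by
  funext t
  unfold Hfun
  rw [D.jrep, jfun_smul]

variable [NeZero e]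

theorem Hfun_qParam (γ : SL(2, ℤ)) (r : ↥X.R) (z : ℍ) :
    D.Hfun γ r (𝕢 e z) = D.Θ r (γ⁻¹ • z) := by
  obtain ⟨m, hm⟩ := exists_cuspPt_qParam e z
  unfold Hfun
  rw [hm]
  have hmem := D.conj_T_zpow_mem γ m
  have : γ⁻¹ • ModularGroup.T ^ (m * (e : ℤ)) • z =
      (γ⁻¹ * ModularGroup.T ^ (m * (e : ℤ)) * γ) • (γ⁻¹ • z) := by
    rw [← mul_smul, ← mul_smul]
    congr 1
    group
  rw [this, D.smul_mem r _ hmem]

theorem Hfun_qParam_mul (γ : SL(2, ℤ)) (r : ↥X.R) (k : ℤ) {t : ℂ} (ht0 : t ≠ 0)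
    (ht1 : ‖t‖ < 1) :
    D.Hfun γ r (𝕢 e (k : ℂ) * t) = D.Θ r (γ⁻¹ • ModularGroup.T ^ k • cuspPt e t) := by
  have h := D.Hfun_qParam γ r (ModularGroup.T ^ k • cuspPt e t)
  rw [qParam_T_zpow_smul, qParam_cuspPt ht0 ht1] at h
  exact h

/-- Germs at the cusp are equal iff the functions on `ℍ` are. -/
theorem Hfun_eventuallyEq_iff (γ γ' : SL(2, ℤ)) (r r' : ↥X.R) :
    D.Hfun γ r =ᶠ[𝓝[≠] (0 : ℂ)] D.Hfun γ' r' ↔
      ∀ z : ℍ, D.Θ r (γ⁻¹ • z) = D.Θ r' (γ'⁻¹ • z) := by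
  constructor
  · intro h
    obtain ⟨R, hR⟩ := exists_im_of_eventually_nhdsNE e h
    have h1 : (fun z : ℍ => D.Θ r (γ⁻¹ • z)) = fun z : ℍ => D.Θ r' (γ'⁻¹ • z) := by
      refine eq_of_mdiff_of_forall_im_gt (mdiff_comp_smul (D.md r) γ⁻¹)
        (mdiff_comp_smul (D.md r') γ'⁻¹) R ?_
      intro z hz
      have := hR z hz
      rwa [D.Hfun_qParam, D.Hfun_qParam] at this
    exact fun z => congrFun h1 z
  · intro h
    exact Filter.Eventually.of_forall fun t => h (cuspPt e t)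

theorem meromorphicAt_Hfun (γ : SL(2, ℤ)) (r : ↥X.R) : MeromorphicAt (D.Hfun γ r) 0 := by
  set F : ℍ → ℂ := fun z => D.Θ r (γ⁻¹ • z) with hF
  have hFmd : MDiff F := mdiff_comp_smul (D.md r) γ⁻¹
  have hper : ∀ z : ℍ, F (ModularGroup.T ^ e • z) = F z := by
    intro z
    have hmem := D.conj_T_zpow_mem γ 1
    rw [one_mul, zpow_natCast] at hmem
    have : γ⁻¹ • ModularGroup.T ^ e • z = (γ⁻¹ * ModularGroup.T ^ e * γ) • (γ⁻¹ • z) := by
      rw [← mul_smul, ← mul_smul]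
      congr 1
      group
    show D.Θ r (γ⁻¹ • ModularGroup.T ^ e • z) = D.Θ r (γ⁻¹ • z)
    rw [this, D.smul_mem r _ hmem]
  obtain ⟨M, C, Y, hgrow⟩ := D.growth r γ⁻¹
  have hmer := H82.cm_meromorphicAt_cuspFunction_of_growth e F hFmd hper M C Y hgrow
  refine hmer.congr ?_
  filter_upwards [self_mem_nhdsWithin] with t ht
  exact cuspFunction_eq_cuspPt e F ht

variable (G : H23.MerGermField (0 : ℂ))

/-- The embedding of `R` into germs at the cusp attached to `γ`. -/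
def sigma₀ (γ : SL(2, ℤ)) : ↥X.R →+* G.M :=
  germHom G (D.Hfun γ) (D.meromorphicAt_Hfun γ) (D.Hfun_add γ) (D.Hfun_mul γ) (D.Hfun_one γ)

theorem sigma₀_apply (γ : SL(2, ℤ)) (r : ↥X.R) : D.sigma₀ G γ r = G.germ (D.Hfun γ r) := rfl

theorem sigma₀_eq_iff (γ γ' : SL(2, ℤ)) (r r' : ↥X.R) :
    D.sigma₀ G γ r = D.sigma₀ G γ' r' ↔ ∀ z : ℍ, D.Θ r (γ⁻¹ • z) = D.Θ r' (γ'⁻¹ • z) := by
  rw [sigma₀_apply, sigma₀_apply,
    G.germ_eq_iff _ _ (D.meromorphicAt_Hfun γ r) (D.meromorphicAt_Hfun γ' r'),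
    D.Hfun_eventuallyEq_iff]

theorem sigma₀_injective (γ : SL(2, ℤ)) : Function.Injective (D.sigma₀ G γ) := by
  intro r r' h
  rw [sigma₀_eq_iff] at h
  apply D.inj
  funext z
  have := h (γ • z)
  rwa [inv_smul_smul] at this

/-- The embedding of the function field into germs at the cusp attached to `γ`. -/
def sigma (γ : SL(2, ℤ)) : ↥X.F →+* G.M :=
  fracExtend D.frac (D.sigma₀ G γ) (D.sigma₀_injective G γ)

theorem sigma_coe (γ : SL(2, ℤ)) (r : ↥X.R) : D.sigma G γ (r : ↥X.F) = D.sigma₀ G γ r :=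
  fracExtend_coe D.frac _ _ r

theorem sigma_algebraMap (γ : SL(2, ℤ)) (c : ℂ) :
    D.sigma G γ (algebraMap ℂ ↥X.F c) = G.germ (fun _ => c) := by
  rw [sigma, fracExtend_algebraMap, sigma₀_apply, D.Hfun_const]

theorem sigma_eq_iff (γ γ' : SL(2, ℤ)) :
    D.sigma G γ = D.sigma G γ' ↔ γ⁻¹ * γ' ∈ X.Γ := by
  constructor
  · intro h
    refine D.sep _ fun r z => ?_
    have h1 : D.sigma₀ G γ r = D.sigma₀ G γ' r := by
      rw [← sigma_coe, ← sigma_coe, h]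
    rw [sigma₀_eq_iff] at h1
    have := h1 (γ' • z)
    simp only [inv_smul_smul] at this
    rw [mul_smul]
    exact this
  · intro h
    refine ringHom_ext_of_frac D.frac fun r => ?_
    rw [sigma_coe, sigma_coe, sigma₀_eq_iff]
    intro z
    have : γ⁻¹ • z = (γ⁻¹ * γ') • (γ'⁻¹ • z) := by
      rw [← mul_smul]
      congr 1
      group
    rw [this, D.smul_mem r _ h]

theorem sigma_j (γ : SL(2, ℤ)) :
    D.sigma G γ X.j = G.germ (fun t => H23.jfun (cuspPt e t)) := by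
  have := D.sigma_coe G γ ⟨X.j, D.jmem⟩
  rw [sigma₀_apply, D.Hfun_j] at this
  exact this

theorem val_sigma_j (γ : SL(2, ℤ)) :
    G.val (D.sigma G γ X.j) = ((-(e : ℤ) : ℤ) : WithTop ℤ) := by
  rw [sigma_j, G.val_germ _ CoreData.meromorphicAt_jfun_cuspPt]
  exact (meromorphicOrderAt_eq_int_iff CoreData.meromorphicAt_jfun_cuspPt).mpr
    (exists_jfun_cuspPt_eq e)

theorem val_sigma_j_inv (γ : SL(2, ℤ)) :
    G.val (D.sigma G γ (X.j)⁻¹) = (((e : ℕ) : ℤ) : WithTop ℤ) := by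
  rw [map_inv₀, AddValuation.map_inv, val_sigma_j,
    ← WithTop.LinearOrderedAddCommGroup.coe_neg, neg_neg]

theorem val_sigma₀_T_mul (γ : SL(2, ℤ)) (r : ↥X.R) :
    G.val (D.sigma₀ G (ModularGroup.T * γ) r) = G.val (D.sigma₀ G γ r) := by
  rw [sigma₀_apply, sigma₀_apply, G.val_germ _ (D.meromorphicAt_Hfun _ r),
    G.val_germ _ (D.meromorphicAt_Hfun _ r)]
  have hc : 𝕢 e (((-1 : ℤ) : ℤ) : ℂ) ≠ 0 := Function.Periodic.qParam_ne_zero _
  have hev : D.Hfun (ModularGroup.T * γ) r =ᶠ[𝓝[≠] (0 : ℂ)]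
      fun t => D.Hfun γ r (𝕢 e (((-1 : ℤ) : ℤ) : ℂ) * t) := by
    refine eventually_nhdsNE_of_forall fun t ht0 ht1 => ?_
    beta_reduce
    rw [D.Hfun_qParam_mul γ r (-1) ht0 ht1, zpow_neg_one]
    unfold Hfun
    rw [mul_inv_rev, mul_smul]
  rw [meromorphicOrderAt_congr hev, meromorphicOrderAt_comp_mul_left hc]

theorem val_sigma₀_dvd (γ : SL(2, ℤ)) (k : ℕ)
    (hk : γ⁻¹ * ModularGroup.T ^ k * γ ∈ X.Γ) (r : ↥X.R) (hr : r ≠ 0) :
    ∃ m : ℤ, G.val (D.sigma₀ G γ r) =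
      ((((e / Nat.gcd e k : ℕ) : ℤ) * m : ℤ) : WithTop ℤ) := by
  have hne : D.sigma₀ G γ r ≠ 0 := by
    intro h
    exact hr (D.sigma₀_injective G γ (by rw [h, map_zero]))
  have hval : G.val (D.sigma₀ G γ r) ≠ ⊤ := by
    rw [Ne, AddValuation.top_iff]
    exact hne
  obtain ⟨n, hn⟩ := WithTop.ne_top_iff_exists.mp hval
  have hord : meromorphicOrderAt (D.Hfun γ r) 0 = (n : WithTop ℤ) := by
    rw [← G.val_germ _ (D.meromorphicAt_Hfun γ r), ← sigma₀_apply, ← hn]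
  have hc : 𝕢 e (((k : ℤ) : ℤ) : ℂ) ≠ 0 := Function.Periodic.qParam_ne_zero _
  have hinv : ∀ᶠ t in 𝓝[≠] (0 : ℂ),
      D.Hfun γ r (𝕢 e (((k : ℤ) : ℤ) : ℂ) * t) = D.Hfun γ r t := by
    refine eventually_nhdsNE_of_forall fun t ht0 ht1 => ?_
    rw [D.Hfun_qParam_mul γ r k ht0 ht1, zpow_natCast]
    have : γ⁻¹ • ModularGroup.T ^ k • cuspPt e t =
        (γ⁻¹ * ModularGroup.T ^ k * γ) • (γ⁻¹ • cuspPt e t) := by
      rw [← mul_smul, ← mul_smul]
      congr 1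
      group
    rw [this, D.smul_mem r _ hk]
    rfl
  have h1 := zpow_eq_one_of_comp_mul_eq hc (D.meromorphicAt_Hfun γ r) hord hinv
  obtain ⟨m, hm⟩ := dvd_of_qParam_zpow_eq_one e k n h1
  exact ⟨m, by rw [← hn, hm]⟩

/-- **Transparency** of the valuation: `val (σ γ f)` is the order at the cusp of `h ∘ γ⁻¹`, for
every holomorphic `h` representing `f`. -/
theorem val_sigma_eq_cuspOrd (γ : SL(2, ℤ)) (f : ↥X.F) (h : ℍ → ℂ) (_hf : f ≠ 0)
    (hrep : Rep X h f) :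
    G.val (D.sigma G γ f) = H23.EsA.cuspOrd e (fun z => h (γ⁻¹ • z)) := by
  obtain ⟨r, s, hs, hfs⟩ := D.frac f
  have hmul : h * D.Θ s = D.Θ r := by
    have h1 : H44.LaurentRel (h * D.Θ s)
        ((f : LaurentSeries ℂ) * ((s : ↥X.F) : LaurentSeries ℂ)) :=
      H44.LaurentRel.mul hrep (D.rep s)
    have h2 : (f : LaurentSeries ℂ) * ((s : ↥X.F) : LaurentSeries ℂ)
        = (((r : ↥X.F)) : LaurentSeries ℂ) := by
      rw [← hfs]
      rfl
    rw [h2] at h1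
    exact h1.unique_left (D.rep r)
  set Hh : ℂ → ℂ := fun t => h (γ⁻¹ • cuspPt e t) with hHh
  have hprod : Hh * D.Hfun γ s = D.Hfun γ r := by
    funext t
    exact congrFun hmul (γ⁻¹ • cuspPt e t)
  have hsne : D.sigma₀ G γ s ≠ 0 := by
    intro h0
    exact hs (D.sigma₀_injective G γ (by rw [h0, map_zero]))
  have hsval : G.val (D.sigma₀ G γ s) ≠ ⊤ := by
    rw [Ne, AddValuation.top_iff]
    exact hsne
  have hsord : G.val (D.sigma₀ G γ s) = meromorphicOrderAt (D.Hfun γ s) 0 := by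
    rw [sigma₀_apply, G.val_germ _ (D.meromorphicAt_Hfun γ s)]
  have hrord : G.val (D.sigma₀ G γ r) = meromorphicOrderAt (D.Hfun γ r) 0 := by
    rw [sigma₀_apply, G.val_germ _ (D.meromorphicAt_Hfun γ r)]
  have hsev : ∀ᶠ t in 𝓝[≠] (0 : ℂ), D.Hfun γ s t ≠ 0 := by
    rw [← meromorphicOrderAt_ne_top_iff_eventually_ne_zero (D.meromorphicAt_Hfun γ s), ← hsord]
    exact hsval
  have hmer : MeromorphicAt Hh 0 := by
    have hq : MeromorphicAt (fun t => D.Hfun γ r t / D.Hfun γ s t) 0 :=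
      (D.meromorphicAt_Hfun γ r).div (D.meromorphicAt_Hfun γ s)
    refine hq.congr ?_
    filter_upwards [hsev] with t ht
    have := congrFun hprod t
    simp only [Pi.mul_apply] at this
    rw [← this, mul_div_cancel_right₀ _ ht]
  have hcusp : Function.Periodic.cuspFunction (e : ℝ) ((fun z : ℍ => h (γ⁻¹ • z)) ∘ ofComplex)
      =ᶠ[𝓝[≠] (0 : ℂ)] Hh := by
    filter_upwards [self_mem_nhdsWithin] with t ht
    exact cuspFunction_eq_cuspPt e (fun z : ℍ => h (γ⁻¹ • z)) ht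
  have hordmul : meromorphicOrderAt Hh 0 + meromorphicOrderAt (D.Hfun γ s) 0
      = meromorphicOrderAt (D.Hfun γ r) 0 := by
    rw [← meromorphicOrderAt_mul hmer (D.meromorphicAt_Hfun γ s), hprod]
  have hvalmul : G.val (D.sigma G γ f) + G.val (D.sigma₀ G γ s) = G.val (D.sigma₀ G γ r) := by
    rw [← sigma_coe, ← sigma_coe, ← AddValuation.map_mul, ← map_mul, hfs]
  rw [H23.EsA.cuspOrd, meromorphicOrderAt_congr hcusp]
  rw [hrord, ← hordmul, ← hsord] at hvalmul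
  exact (WithTop.add_right_inj hsval).mp hvalmul

end CoreDataG

/-- **ES1-A / PL-3**: the transparent coset datum at the cusp of a modular model. -/
theorem cuspDatum (X : Model) (hX : X.IsModular) : CuspDatumStatement X := by
  obtain ⟨G⟩ := H33.merGerm_statement 0
  obtain ⟨e, he, ⟨D⟩⟩ := exists_coreDataG X hX
  have hne : NeZero e := ⟨he.ne'⟩
  refine ⟨e, {
    M := G.M
    val := G.val
    der := G.der
    der_add := G.der_add
    der_mul := G.der_mul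
    val_der := G.val_der
    σ := D.sigma G
    val_const := ?_
    der_const := ?_
    σ_const := ?_
    σ_eq_iff := D.sigma_eq_iff G
    σ_y := ?_
    val_y := D.val_sigma_j_inv G
    val_g := ?_
    val_dvd := ?_ }, he, ?_⟩
  · intro γ c hc
    rw [D.sigma_algebraMap]
    exact val_germ_const G hc
  · intro γ c
    rw [D.sigma_algebraMap]
    exact der_germ_const G _
  · intro γ γ' c
    rw [D.sigma_algebraMap, D.sigma_algebraMap]
  · intro γ γ'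
    rw [map_inv₀, map_inv₀, D.sigma_j, D.sigma_j]
  · intro γ f
    refine val_eq_of_val_eq_of_frac D.frac G.val (fun r => ?_) f
    rw [D.sigma_coe, D.sigma_coe]
    exact D.val_sigma₀_T_mul G γ r
  · intro γ k hk f hf
    refine val_dvd_of_val_dvd_of_frac D.frac G.val _ (fun r hr => ?_) f hf
    rw [D.sigma_coe]
    exact D.val_sigma₀_dvd G γ k hk r hr
  · intro γ f h hf hrep
    exact D.val_sigma_eq_cuspOrd G γ f h hf hrep

end Fermat.Agent.H96.ES1A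

end
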